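import Fermat.Agent.CFT.GWUnramified
import Fermat.Agent.MLT.Ad.Tangent
import Fermat.Agent.Galois.Deform.Mat
import Fermat.Agent.CFT.OrdTangentLift
import Fermat.Agent.CFT.FlatTangentLift
import Fermat.Agent.MLT.Ordinary.Basic
import Fermat.Agent.Galois.DeformLocal
import Fermat.Prelude.Def_GaloisRep_StrictOrdinary
import Fermat.Prelude.Def_GaloisRep_Flat
import Fermat.Agent.CFT.FlatTangentBound

/-!
# The tangent bounds at `p`

The classes of the tangent vectors of a strictly ordinary or flat lift span at most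
`dim H⁰ + [k : 𝔽_p]` dimensions at `p`.
-/

set_option autoImplicit false

noncomputable section

open IsLocalRing Module groupCohomology ExtCitation

namespace FermatLib.MLT.TW56

open FermatLib.Galois.Deform

attribute [local instance] FermatLib.Galois.Deform.dualAlgebra

variable {𝒪 : Type} [CommRing 𝒪] [IsLocalRing 𝒪] [Finite (ResidueField 𝒪)]
  {R : Type} [CommRing R] [IsLocalRing R] [IsNoetherianRing R] [Algebra 𝒪 R]
  (π : R →ₐ[𝒪] ResidueField 𝒪) (M : GQ →* M2 R) (hM : MatCont M)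
  (ρ : GQ →* M2 (ResidueField 𝒪)) (hρ : ∀ g, (M g).map π = ρ g)
  (χ : GQ → 𝒪) (hdet : ∀ g, (M g).det = algebraMap 𝒪 R (χ g))
  (p : ℕ) [Fact p.Prime] [Algebra (ZMod p) (ResidueField 𝒪)] {κ : Type} (aR : κ → R)

omit [IsLocalRing 𝒪] [Finite (ResidueField 𝒪)] [IsNoetherianRing R] [Algebra 𝒪 R] in
/-- The base change of the standard basis has the mapped matrices. -/
theorem exists_basis_baseChange {B : Type} [CommRing B] [IsLocalRing B] (φ : R →+* B)
    (hφ : IsLocalHom φ) :
    ∃ b : Basis (Fin 2) B ((toAdic M hM).baseChangeAlong φ hφ).V,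
      ∀ g, Galois.repMatrix b ((toAdic M hM).baseChangeAlong φ hφ).ρ g = (M g).map φ := by
  let _ : Algebra R B := φ.toAlgebra
  let b : Basis (Fin 2) B ((toAdic M hM).baseChangeAlong φ hφ).V :=
    Algebra.TensorProduct.basis B (stdBasis M hM)
  refine ⟨b, fun g => ?_⟩
  show LinearMap.toMatrix (Algebra.TensorProduct.basis _ (stdBasis M hM))
    (Algebra.TensorProduct.basis _ (stdBasis M hM)) (((toAdic M hM).ρ g).baseChange B) = _
  rw [LinearMap.toMatrix_baseChange, toMatrix_toAdic]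
  rfl

omit [IsNoetherianRing R] in
include hM in
/-- **Strictly ordinary lifts.** -/
theorem exists_strictOrdinary_bound (hp2 : p ≠ 2) (hcyc : (toAdic M hM).DetIsCyclotomic p)
    (h : (toAdic M hM).IsStrictOrdinaryAt p) :
    ∃ L : Submodule (ZMod p) (H1 (Rep.res (primeLocalToGlobal (pPrime p)) (Ad.adRep ρ p))),
      L ≤ continuousH1 (primeLocalToGlobal (pPrime p))
          (Rep.res (primeLocalToGlobal (pPrime p)) (Ad.adRep ρ p)) ∧
      finrank (ZMod p) L ≤
        finrank (ZMod p) (Rep.res (primeLocalToGlobal (pPrime p)) (Ad.adRep ρ p)).ρ.invariants +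
          finrank (ZMod p) (ResidueField 𝒪) ∧
      ∀ l : tangentSpace π aR, CFT.resAt (pPrime p) (Ad.adRep ρ p)
        (Ad.classMap π M ρ hρ χ hdet aR p l) ∈ L := by
  obtain ⟨hle, -, hfr⟩ := CFT.OrdTangent.ordClasses_bound (p := p) (ρ := ρ) hp2
  refine ⟨CFT.OrdTangent.ordClasses p ρ, hle, hfr, fun l => ?_⟩
  obtain ⟨φ, -, hφl⟩ := l.2
  have hloc : IsLocalHom (φ : R →+* DualNumber (ResidueField 𝒪)) := isLocalHom_of_res (dualRes 𝒪) φ
  let ρA := (toAdic M hM).baseChangeAlong (φ : R →+* DualNumber (ResidueField 𝒪)) hloc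
  obtain ⟨b, hmat⟩ := exists_basis_baseChange M hM (φ : R →+* DualNumber (ResidueField 𝒪)) hloc
  refine CFT.OrdTangent.mem_ordClasses ρA b (fun g => ?_)
    (Galois.DeformLocal.detIsCyclotomic_baseChange _ hloc hcyc)
    (MLT.isStrictOrdinaryAt_baseChangeAlong _ hloc h)
    (Ad.toCocycle π M ρ hρ χ hdet aR p l) (fun g => ?_)
  · rw [hmat, ← hρ g]
    ext i j
    exact fst_dualPoint π φ (M g i j)
  · rw [hmat]
    show (M g).map l.1 * ρ g⁻¹ = _
    rw [← hφl]
    rfl

include hM in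
/-- **Flat lifts.** -/
theorem exists_flat_bound (hp2 : p ≠ 2) (hcyc : (toAdic M hM).DetIsCyclotomic p)
    (h : (toAdic M hM).IsFlatAt p) :
    ∃ L : Submodule (ZMod p) (H1 (Rep.res (primeLocalToGlobal (pPrime p)) (Ad.adRep ρ p))),
      L ≤ continuousH1 (primeLocalToGlobal (pPrime p))
          (Rep.res (primeLocalToGlobal (pPrime p)) (Ad.adRep ρ p)) ∧
      finrank (ZMod p) L ≤
        finrank (ZMod p) (Rep.res (primeLocalToGlobal (pPrime p)) (Ad.adRep ρ p)).ρ.invariants +
          finrank (ZMod p) (ResidueField 𝒪) ∧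
      ∀ l : tangentSpace π aR, CFT.resAt (pPrime p) (Ad.adRep ρ p)
        (Ad.classMap π M ρ hρ χ hdet aR p l) ∈ L := by
  obtain ⟨hle, -, hfr⟩ : CFT.FlatTangent.flatClasses ρ p ≤
        continuousH1 (primeLocalToGlobal (pPrime p))
          (Rep.res (primeLocalToGlobal (pPrime p)) (Ad.adRep ρ p)) ∧
      FiniteDimensional (ZMod p) (CFT.FlatTangent.flatClasses ρ p) ∧
      finrank (ZMod p) (CFT.FlatTangent.flatClasses ρ p) ≤
        finrank (ZMod p) (Rep.res (primeLocalToGlobal (pPrime p)) (Ad.adRep ρ p)).ρ.invariants +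
          finrank (ZMod p) (ResidueField 𝒪) := by
    exact CFT.FlatTangent.flatClasses_bound hp2 (CFT.FlatTangent.det_eq_cycloChar (toAdic M hM)
      (stdBasis M hM) (π : R →+* ResidueField 𝒪) (fun g => by
        rw [← hρ g, Galois.repMatrix_apply, toMatrix_toAdic]
        rfl) hcyc)
  refine ⟨CFT.FlatTangent.flatClasses ρ p, hle, hfr, fun l => ?_⟩
  obtain ⟨φ, -, hφl⟩ := l.2
  have hloc : IsLocalHom (φ : R →+* DualNumber (ResidueField 𝒪)) := isLocalHom_of_res (dualRes 𝒪) φ
  have hfin : Finite (DualNumber (ResidueField 𝒪)) := finite_dualNumber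
  let ρA := (toAdic M hM).baseChangeAlong (φ : R →+* DualNumber (ResidueField 𝒪)) hloc
  obtain ⟨b, hmat⟩ := exists_basis_baseChange M hM (φ : R →+* DualNumber (ResidueField 𝒪)) hloc
  refine CFT.FlatTangent.mem_flatClasses ρA b (fun g => ?_)
    (Galois.FlatModel.isFlatAt_baseChange _ hloc h)
    (Ad.toCocycle π M ρ hρ χ hdet aR p l) (fun g => ?_)
  · rw [hmat, ← hρ g]
    ext i j
    exact fst_dualPoint π φ (M g i j)
  · rw [hmat]
    show (M g).map l.1 * ρ g⁻¹ = _
    rw [← hφl]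
    rfl

end FermatLib.MLT.TW56
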