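import Fermat.Agent.Galois.AttachCyclotomic
import Fermat.Agent.Galois.DeformLocal
import Fermat.Agent.Galois.Deform.Residual
import Fermat.Agent.Galois.RepAdic
import Fermat.Agent.MLT.Ad.Tangent
import Fermat.Prelude.Def_GaloisRep_DeformationRingData
import Fermat.Prelude.Thm_IsLocalRing_isAdicComplete_of_module_finite

/-!
# Matrices of a universal deformation

The universal deformation is given by matrices reducing to the residual matrices, with determinant
coming from the coefficient ring, and a tangent vector vanishing on all traces is zero.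
-/

set_option autoImplicit false

noncomputable section

open IsLocalRing Module

namespace FermatLib.MLT.TW56

open FermatLib.Galois FermatLib.Galois.Deform

attribute [local instance] FermatLib.Galois.Deform.dualAlgebra

local notation "Qbar" => AlgebraicClosure ℚ

variable {𝒪 : Type} [CommRing 𝒪] [IsDomain 𝒪] [IsDiscreteValuationRing 𝒪]
  [IsAdicComplete (maximalIdeal 𝒪) 𝒪] {ρbar : ResidualGaloisRep (ResidueField 𝒪)}
  {𝒟 : ∀ ⦃A : Type⦄ [CommRing A] [IsLocalRing A] [Algebra 𝒪 A], GaloisRepAdic A → Prop}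

/-- A cyclotomic determinant comes from the coefficient ring. -/
theorem exists_det_char (p : ℕ) [Fact p.Prime] (hp𝒪 : (p : 𝒪) ∈ maximalIdeal 𝒪) :
    ∃ χ : GQ → 𝒪, ∀ (R : Type) [CommRing R] [IsLocalRing R] [IsNoetherianRing R] [Algebra 𝒪 R]
      [IsLocalHom (algebraMap 𝒪 R)] (ρ : GaloisRepAdic R), ρ.DetIsCyclotomic p →
        ∀ g, LinearMap.det (ρ.ρ g) = algebraMap 𝒪 R (χ g) := by
  obtain ⟨ι, hι⟩ := Attach.exists_padicIntHom (p := p) 𝒪 hp𝒪
  refine ⟨fun g => ι (Attach.cycloChar p g), fun R _ _ _ _ _ ρ h g => ?_⟩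
  refine sub_eq_zero.mp (IsHausdorff.haus (I := maximalIdeal R) inferInstance _ fun n => ?_)
  rw [SModEq.zero, smul_eq_mul, Ideal.mul_top]
  obtain ⟨a, ha⟩ := DeformLocal.exists_cyclotomic_exponent (Fact.out : p.Prime).ne_zero n g
  obtain ⟨ζ, hζ⟩ := Attach.exists_primitiveRoot p n
  have h1 : ι (Attach.cycloChar p g) - (a : 𝒪) ∈ maximalIdeal 𝒪 ^ n := by
    rw [← map_natCast ι a, ← map_sub]
    refine hι n _ ?_
    rw [map_sub, map_natCast, Attach.cycloChar_toZModPow_eq p hζ (ha ζ hζ.pow_eq_one), sub_self]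
  have h2 : algebraMap 𝒪 R (ι (Attach.cycloChar p g)) - (a : R) ∈ maximalIdeal R ^ n := by
    rw [← map_natCast (algebraMap 𝒪 R) a, ← map_sub]
    have := Ideal.mem_map_of_mem (algebraMap 𝒪 R) h1
    rw [Ideal.map_pow] at this
    exact Ideal.pow_right_mono (Ideal.map_le_iff_le_comap.mpr fun y hy =>
      Ideal.mem_comap.mpr (map_nonunit (algebraMap 𝒪 R) y hy)) _ this
  have h3 : LinearMap.det (ρ.ρ g) - (a : R) ∈ maximalIdeal R ^ n := by
    refine (Ideal.span_singleton_le_iff_mem _).mpr ?_ (h.2 n g a ha)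
    rw [Nat.cast_pow]
    exact Ideal.pow_mem_pow h.1 n
  have := Ideal.sub_mem _ h3 h2
  rwa [sub_sub_sub_cancel_right] at this

variable (DQ : GaloisRep.DeformationRingData 𝒪 ρbar 𝒟)

/-- Matrices of the universal deformation reducing to the residual matrices. -/
theorem exists_mat :
    ∃ (π : DQ.R →ₐ[𝒪] ResidueField 𝒪) (M : GQ →* M2 DQ.R) (hM : MatCont M),
      DQ.ρ.IsEquiv (toAdic M hM) ∧ ∀ g, (M g).map π = residualMat ρbar g := by
  obtain ⟨π⟩ := exists_res (inferInstance : IsLocalHom (algebraMap 𝒪 DQ.R)) DQ.residue_surjective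
  obtain ⟨M, hM, he, hmap⟩ := exists_matRep _ ρbar (residualBasis ρbar) DQ.ρ DQ.residual_isEquiv
  refine ⟨π, M, hM, he, fun g => ?_⟩
  ext i j
  refine RingHom.injective (ResidueField.map (algebraMap 𝒪 DQ.R)) ?_
  rw [Matrix.map_apply, ← map_residue_eq_map_map]
  exact congr_fun (congr_fun (hmap g) i) j

variable [Finite (ResidueField 𝒪)]

/-- A tangent vector vanishing on the traces is zero. -/
theorem eq_zero_of_trace (π : DQ.R →ₐ[𝒪] ResidueField 𝒪) {M : GQ →* M2 DQ.R} {hM : MatCont M}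
    (he : DQ.ρ.IsEquiv (toAdic M hM)) (hres : ∀ g, (M g).map π = residualMat ρbar g)
    (hstable : ∀ (φ : DQ.R →ₐ[𝒪] DualNumber (ResidueField 𝒪))
      (hφ : IsLocalHom (φ : DQ.R →+* DualNumber (ResidueField 𝒪))),
        𝒟 (DQ.ρ.baseChangeAlong (φ : DQ.R →+* DualNumber (ResidueField 𝒪)) hφ))
    {κ : Type} (aR : κ → DQ.R) :
    ∀ l ∈ tangentSpace π aR, (∀ g, l (M g).trace = 0) → l = 0 := by
  rintro l ⟨φ, -, rfl⟩ htr
  set D := DualNumber (ResidueField 𝒪)
  have : IsLocalHom (algebraMap 𝒪 D) := isLocalHom_algebraMap_of_res (dualRes 𝒪)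
  have hfinD : Finite D := finite_dualNumber
  have : Module.Finite 𝒪 D := Module.Finite.of_finite
  have hadic : IsAdicComplete (maximalIdeal D) D :=
    IsLocalRing.isAdicComplete_of_module_finite (𝒪 := 𝒪)
  have hloc : ∀ ψ : DQ.R →ₐ[𝒪] D, IsLocalHom (ψ : DQ.R →+* D) := isLocalHom_of_res (dualRes 𝒪)
  have htrace : ∀ g, DQ.ρ.trace g = (M g).trace := fun g => by
    rw [trace_eq_of_isEquiv he, trace_toAdic]
  have hfst : ∀ (ψ : DQ.R →ₐ[𝒪] D) (g : GQ), residue D (ψ (DQ.ρ.trace g)) =
      ResidueField.map (algebraMap 𝒪 D) (residualMat ρbar g).trace := fun ψ g => by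
    rw [htrace, map_residue_eq_map_map (dualRes 𝒪)]
    congr 1
    show (ψ (M g).trace).fst = _
    rw [fst_dualPoint π, ← hres g, Matrix.trace_fin_two, Matrix.trace_fin_two, map_add]
    rfl
  have hiso : ∀ ψ : DQ.R →ₐ[𝒪] D, (DQ.ρ.baseChangeAlong (ψ : DQ.R →+* D) (hloc ψ)).residual.IsEquiv
      (ρbar.baseChangeAlong (ResidueField.map (algebraMap 𝒪 D))) := fun ψ => by
    obtain ⟨e⟩ : (ρbar.baseChangeAlong (ResidueField.map (algebraMap 𝒪 D))).IsEquiv
        (DQ.ρ.baseChangeAlong (ψ : DQ.R →+* D) (hloc ψ)).residual := by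
      refine residual_isEquiv_of_trace_eq
        ((isAbsolutelyIrreducible_baseChangeAlong_iff _ ρbar).mpr DQ.absIrr) fun g => ?_
      let _ : Algebra (ResidueField 𝒪) (ResidueField D) :=
        (ResidueField.map (algebraMap 𝒪 D)).toAlgebra
      rw [trace_residual, trace_baseChangeAlong]
      show LinearMap.trace _ _ ((ρbar.ρ g).baseChange (ResidueField D)) = residue D (ψ (DQ.ρ.trace g))
      rw [LinearMap.trace_baseChange, hfst, residualMat, trace_repMatrix]
      rfl
    exact ⟨e.symm⟩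
  have heq : φ = dualZero π := by
    obtain ⟨ψ, -, huniq⟩ := DQ.universal D (residue_surjective_of_res (dualRes 𝒪))
      (DQ.ρ.baseChangeAlong (φ : DQ.R →+* D) (hloc φ)) (hstable φ (hloc φ)) (hiso φ)
    refine (huniq φ ⟨hloc φ, ⟨GaloisRepAdic.Equiv.refl _⟩⟩).trans
      (huniq (dualZero π) ⟨hloc _, ?_⟩).symm
    refine adic_isEquiv_of_trace_eq ?_ fun g => ?_
    · obtain ⟨e⟩ := hiso (dualZero π)
      refine isAbsolutelyIrreducible_of_trace_eq
        ((isAbsolutelyIrreducible_baseChangeAlong_iff (ResidueField.map (algebraMap 𝒪 D)) ρbar).mpr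
          DQ.absIrr) fun g => ?_
      have hc : (ρbar.baseChangeAlong (ResidueField.map (algebraMap 𝒪 D))).ρ g =
          e.toLinearEquiv.conj
            ((DQ.ρ.baseChangeAlong (dualZero π : DQ.R →+* D) (hloc _)).residual.ρ g) := by
        refine LinearMap.ext fun y => ?_
        rw [LinearEquiv.conj_apply_apply, e.map_apply, LinearEquiv.apply_symm_apply]
      rw [hc, LinearMap.trace_conj']
    · rw [trace_baseChangeAlong, trace_baseChangeAlong, htrace]
      refine TrivSqZeroExt.ext ?_ ?_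
      · show (dualZero π (M g).trace).fst = (φ (M g).trace).fst
        rw [fst_dualPoint π, fst_dualPoint π]
      · show (dualZero π (M g).trace).snd = dualSnd φ (M g).trace
        rw [htr g]
        rfl
  rw [heq]
  exact funext fun r => TrivSqZeroExt.snd_inl _ (π r)

end FermatLib.MLT.TW56
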