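import Fermat.Agent.CFT.GWDefs
import Fermat.Agent.MLT.Ad.Basic
import Fermat.Agent.Galois.InvolutionCyclotomic
import Fermat.Prelude.Def_ExtEndgame_ProductionDatum

/-!
# The adjoint module at infinity

For odd `p` classes at infinity vanish, and an odd representation has at least a line over `k` of
invariants there.
-/

set_option autoImplicit false

noncomputable section

open CategoryTheory Module groupCohomology ExtCitation

namespace FermatLib.MLT.TW56

local notation "Γℚ" => (AlgebraicClosure ℚ ≃ₐ[ℚ] AlgebraicClosure ℚ)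

theorem complexConjugation_ne_one : complexConjugation ≠ 1 := by
  intro h
  obtain ⟨i, hi⟩ := IsAlgClosed.exists_eq_mul_self (-1 : AlgebraicClosure ℚ)
  have h1 := complexEmbedding_complexConjugation i
  rw [h, AlgEquiv.one_apply] at h1
  obtain ⟨r, hr⟩ := Complex.conj_eq_iff_real.1 h1.symm
  have h2 : complexEmbedding i * complexEmbedding i = -1 := by
    rw [← map_mul, ← hi, map_neg, map_one]
  rw [hr, ← Complex.ofReal_mul] at h2
  have := congrArg Complex.re h2
  simp at this
  nlinarith [mul_self_nonneg r]

theorem archimedean_eq_one_or_gen (g : archimedeanDecomposition) :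
    g = 1 ∨ g = archimedeanGen := by
  obtain ⟨n, hn⟩ := Subgroup.mem_zpowers_iff.mp g.2
  rcases Int.even_or_odd' n with ⟨j, rfl | rfl⟩
  · refine Or.inl (Subtype.ext ?_)
    rw [← hn, zpow_mul, zpow_two, complexConjugation_mul_self, one_zpow]
    rfl
  · refine Or.inr (Subtype.ext ?_)
    rw [← hn, zpow_add, zpow_mul, zpow_two, complexConjugation_mul_self, one_zpow, one_mul,
      zpow_one]
    rfl

variable {p : ℕ} [Fact p.Prime]

/-- Classes at infinity vanish for odd `p`. -/
theorem archimedean_h1_eq_zero (hp2 : p ≠ 2) (N : Rep (ZMod p) Γℚ)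
    (x : H1 (Rep.res archimedeanLoc N)) : x = 0 := by
  have h2 : (2 : ZMod p) ≠ 0 := by
    intro h0
    have hd : p ∣ 2 := (ZMod.natCast_eq_zero_iff 2 p).mp h0
    exact hp2 ((Nat.prime_dvd_prime_iff_eq Fact.out Nat.prime_two).mp hd)
  induction x using H1_induction_on with
  | h c =>
    rw [H1π_eq_zero_iff]
    have h := (mem_cocycles₁_iff c).1 c.2 archimedeanGen archimedeanGen
    rw [show archimedeanGen * archimedeanGen = 1 from Subtype.ext complexConjugation_mul_self,
      cocycles₁_map_one] at h
    set v : N := c archimedeanGen with hv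
    have hv' : N.ρ complexConjugation v + v = 0 := h.symm
    refine ⟨(-(2 : ZMod p)⁻¹) • v, funext fun g => ?_⟩
    rw [d₀₁_hom_apply]
    rcases archimedean_eq_one_or_gen g with rfl | rfl
    · rw [cocycles₁_map_one, map_one, Module.End.one_apply, sub_self]
    · show N.ρ complexConjugation ((-(2 : ZMod p)⁻¹) • v) - (-(2 : ZMod p)⁻¹) • v = v
      rw [map_smul, eq_neg_of_add_eq_zero_left hv', ← smul_sub, neg_smul, ← smul_neg, neg_sub,
        sub_neg_eq_add, ← two_smul (ZMod p) v, smul_smul, inv_mul_cancel₀ h2, one_smul]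

variable {k : Type} [Field k] [Algebra (ZMod p) k]

open FermatLib.MLT.Ad in
/-- An involution of determinant `-1` fixes a line of trace zero matrices. -/
theorem finrank_le_invariants_archimedean [Finite k] (hp2 : p ≠ 2)
    (ρ : Γℚ →* Matrix (Fin 2) (Fin 2) k)
    (hdet : (ρ complexConjugation).det = -1) :
    finrank (ZMod p) k ≤
      finrank (ZMod p) (Rep.res archimedeanLoc (adRep ρ p)).ρ.invariants := by
  have h2 : (2 : k) ≠ 0 := by
    have : CharP k p := charP_of_injective_algebraMap (algebraMap (ZMod p) k).injective p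
    exact fun h => hp2 ((Nat.prime_dvd_prime_iff_eq Fact.out Nat.prime_two).mp
      ((CharP.cast_eq_zero_iff k p 2).mp h))
  set C := ρ complexConjugation with hC
  have hCC : C * C = 1 := by rw [hC, ← map_mul, complexConjugation_mul_self, map_one]
  have htr : C.trace = 0 := by
    have hd := hdet
    rw [Matrix.det_fin_two] at hd
    have a00 := congrFun (congrFun hCC 0) 0
    have a11 := congrFun (congrFun hCC 1) 1
    simp [Matrix.mul_apply, Fin.sum_univ_two] at a00 a11
    have hsq : (C 0 0 + C 1 1) * (C 0 0 + C 1 1) = 0 := by linear_combination a00 + a11 + 2 * hd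
    rw [Matrix.trace_fin_two]
    exact mul_self_eq_zero.mp hsq
  have hC0 : C ≠ 0 := fun h0 => by
    rw [h0, Matrix.det_zero] at hdet
    exact one_ne_zero (neg_eq_zero.mp hdet.symm)
  have hmem : ∀ c : k, (⟨c • C, mem_traceZero.mpr (by rw [Matrix.trace_smul, htr, smul_zero])⟩ :
      traceZero k) ∈ (Rep.res archimedeanLoc (adRep ρ p)).ρ.invariants := by
    intro c g
    refine Subtype.ext ?_
    rcases archimedean_eq_one_or_gen g with rfl | rfl
    · show ρ 1 * (c • C) * ρ 1⁻¹ = c • C
      rw [map_one, inv_one, map_one, one_mul, mul_one]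
    · show C * (c • C) * ρ complexConjugation⁻¹ = c • C
      rw [mul_smul_comm, smul_mul_assoc, mul_assoc, rho_mul_inv, mul_one]
  let f : k →ₗ[ZMod p] (Rep.res archimedeanLoc (adRep ρ p)).ρ.invariants :=
    { toFun := fun c => ⟨_, hmem c⟩
      map_add' := fun a b => Subtype.ext (Subtype.ext (add_smul a b C))
      map_smul' := fun t a => Subtype.ext (Subtype.ext (smul_assoc t a C)) }
  have : Finite (adRep ρ p) := Finite.of_injective _ (traceZeroEquiv k).injective
  have : Finite (Rep.res archimedeanLoc (adRep ρ p)).ρ.invariants :=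
    Finite.of_injective (β := adRep ρ p) Subtype.val Subtype.val_injective
  have : Module.Finite (ZMod p) (Rep.res archimedeanLoc (adRep ρ p)).ρ.invariants :=
    Module.Finite.of_finite
  refine LinearMap.finrank_le_finrank_of_injective (f := f) fun a b h => ?_
  exact smul_left_injective k hC0 (congrArg (fun z => ((z : _).1 : traceZero k).1) h)

end FermatLib.MLT.TW56
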