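import Fermat.Agent.MLT.Odd.TWResidual
import Fermat.Agent.MLT.Odd.TamePair
import Fermat.Agent.MLT.Odd.GenLocalCohom
import Fermat.Agent.MLT.TW56.Infinity
import Fermat.Agent.MLT.TW56.LocalP
import Fermat.Prelude.Def_GaloisRep_LocalConditions

/-!
# The tangent space over `S_min` and the auxiliary primes

A lift with cyclotomic determinant, unipotent at the ramified primes, unramified outside them and
the `r` auxiliary primes, and with at most `h⁰ + f` classes at `p`, has a tangent space of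
dimension at most `r`.
-/

set_option autoImplicit false

noncomputable section

open IsLocalRing CategoryTheory Module groupCohomology ExtCitation
open scoped Pointwise

namespace FermatLib.MLT.TW56

open FermatLib.Galois FermatLib.Galois.Deform FermatLib.MLT.Odd

attribute [local instance] FermatLib.Galois.Deform.dualAlgebra

local notation "Qbar" => AlgebraicClosure ℚ

variable {p : ℕ} [Fact p.Prime] {k : Type} [Field k] [Algebra (ZMod p) k] [Finite k]

section Conditions

variable (ρ : GQ →* M2 k)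
  (Lp : Submodule (ZMod p) (H1 (Rep.res (primeLocalToGlobal (pPrime p)) (Ad.adRep ρ p))))

/-- `Lp` at `p` and the unramified classes elsewhere. -/
def pConditions (q : Nat.Primes) :
    Submodule (ZMod p) (H1 (Rep.res (primeLocalToGlobal q) (Ad.adRep ρ p))) :=
  if h : q = pPrime p then h ▸ Lp else CFT.unramifiedSub q (Ad.adRep ρ p)

omit [Finite k] in
lemma pConditions_self : pConditions ρ Lp (pPrime p) = Lp := dif_pos rfl

omit [Finite k] in
lemma pConditions_of_ne {q : Nat.Primes} (h : q ≠ pPrime p) :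
    pConditions ρ Lp q = CFT.unramifiedSub q (Ad.adRep ρ p) := dif_neg h

/-- The conditions at `S` and infinity. -/
def baseConditions (S : Finset Nat.Primes) :
    ∀ v : extArithIndex S, Submodule (ZMod p) (H1 (Rep.res (extArithLoc S v) (Ad.adRep ρ p)))
  | Sum.inl _ => ⊥
  | Sum.inr q => pConditions ρ Lp q.1

omit [Finite k] in
theorem baseConditions_le (S : Finset Nat.Primes)
    (hLp : Lp ≤ continuousH1 (primeLocalToGlobal (pPrime p))
      (Rep.res (primeLocalToGlobal (pPrime p)) (Ad.adRep ρ p))) :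
    ∀ v : extArithIndex S, baseConditions ρ Lp S v ≤
      continuousH1 (extArithLoc S v) (Rep.res (extArithLoc S v) (Ad.adRep ρ p))
  | Sum.inl _ => bot_le
  | Sum.inr q => by
    show pConditions ρ Lp q.1 ≤ _
    by_cases h : q.1 = pPrime p
    · obtain ⟨q, hq⟩ := q
      obtain rfl : q = pPrime p := h
      rw [pConditions_self]
      exact hLp
    · rw [pConditions_of_ne ρ Lp h]
      exact CFT.unramifiedSub_le_continuousH1 _ _

/-- The local defects cancel: `f` at `p` against `h⁰` at infinity. -/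
theorem sum_baseConditions_le (hs : IsTWSetting p ρ (cycloUnits p k)) (S : Finset Nat.Primes)
    (hpS : pPrime p ∈ S)
    (hLp : finrank (ZMod p) Lp ≤
      finrank (ZMod p) (Rep.res (primeLocalToGlobal (pPrime p)) (Ad.adRep ρ p)).ρ.invariants +
        finrank (ZMod p) k) :
    ∑ v, finrank (ZMod p) (baseConditions ρ Lp S v) ≤
      ∑ v, finrank (ZMod p) (Rep.res (extArithLoc S v) (Ad.adRep ρ p)).ρ.invariants := by
  classical
  have hinf : finrank (ZMod p) k ≤
      finrank (ZMod p) (Rep.res archimedeanLoc (Ad.adRep ρ p)).ρ.invariants := by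
    refine finrank_le_invariants_archimedean hs.ne_two ρ ?_
    rw [hs.det_eq, cycloUnits_coe, FermatLib.Galois.cycloChar_involution p
      complexConjugation_mul_self complexConjugation_ne_one, map_neg, map_one]
  let b : Nat.Primes → ℕ := fun q =>
    finrank (ZMod p) (Rep.res (primeLocalToGlobal q) (Ad.adRep ρ p)).ρ.invariants
  have hq : ∀ q : ↥S, finrank (ZMod p) (pConditions ρ Lp q.1) ≤
      b q.1 + if q = ⟨pPrime p, hpS⟩ then finrank (ZMod p) k else 0 := fun q => by
    by_cases h : q.1 = pPrime p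
    · obtain ⟨q, hq⟩ := q
      obtain rfl : q = pPrime p := h
      rw [pConditions_self, if_pos rfl]
      exact hLp
    · rw [pConditions_of_ne ρ Lp h, if_neg fun e => h (congrArg Subtype.val e), add_zero]
      exact Odd.GenLocal.finrank_unramifiedSub_le (Ad.adRep ρ p) (adRep_finiteLevel hs) q.1
  have hsum : ∑ q : ↥S, finrank (ZMod p) (pConditions ρ Lp q.1) ≤
      ∑ q : ↥S, b q.1 + finrank (ZMod p) k :=
    (Finset.sum_le_sum fun q _ => hq q).trans_eq (by
      rw [Finset.sum_add_distrib, Finset.sum_ite_eq']; simp)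
  show ∑ v : Unit ⊕ ↥S, _ ≤ ∑ v : Unit ⊕ ↥S, _
  rw [Fintype.sum_sum_type, Fintype.sum_sum_type]
  show (∑ _u : Unit, finrank (ZMod p)
        (⊥ : Submodule (ZMod p) (H1 (Rep.res archimedeanLoc (Ad.adRep ρ p))))) +
      ∑ q : ↥S, finrank (ZMod p) (pConditions ρ Lp q.1) ≤
    (∑ _u : Unit, finrank (ZMod p) (Rep.res archimedeanLoc (Ad.adRep ρ p)).ρ.invariants) +
      ∑ q : ↥S, b q.1
  rw [Finset.univ_unique, Finset.sum_singleton, finrank_bot, Finset.sum_singleton]
  omega

end Conditions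

section Bound

variable {𝒪 : Type} [CommRing 𝒪] [IsLocalRing 𝒪] [Finite (ResidueField 𝒪)]
  [Algebra (ZMod p) (ResidueField 𝒪)]
  {R : Type} [CommRing R] [IsLocalRing R] [Algebra 𝒪 R]
  (π : R →ₐ[𝒪] ResidueField 𝒪) (M : GQ →* M2 R) (hM : MatCont M)
  (ρ : GQ →* M2 (ResidueField 𝒪)) (hρ : ∀ g, (M g).map π = ρ g)
  (χ : GQ → 𝒪) (hdet : ∀ g, (M g).det = algebraMap 𝒪 R (χ g)) {κ : Type} (aR : κ → R)

include hM in
/-- **The tangent space has dimension at most `r`.** -/
theorem finrank_tangentSpace_le (hs : IsTWSetting p ρ (cycloUnits p (ResidueField 𝒪)))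
    (S : Finset Nat.Primes) (hpS : pPrime p ∈ S)
    (hur : ∀ q : Nat.Primes, q ∉ S → ∀ A : ValuationSubring Qbar, A.LiesOverPrime (q : ℕ) →
      ∀ g ∈ A.inertiaSubgroupIn ℚ, ρ g = 1)
    (hram : ∀ q ∈ S, q ≠ pPrime p → ∃ A : ValuationSubring Qbar, A.LiesOverPrime (q : ℕ) ∧
      ∃ g ∈ A.inertiaSubgroupIn ℚ, ρ g ≠ 1)
    (hsq : ∀ q ∈ S, q ≠ pPrime p → ∀ A : ValuationSubring Qbar, A.LiesOverPrime (q : ℕ) →
      ∀ g ∈ A.inertiaSubgroupIn ℚ, (M g - 1) * (M g - 1) = 0)
    {n r : ℕ} {Sℕ : Finset ℕ} {qv : Fin r → Nat.Primes} (hinj : Function.Injective qv)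
    (hnot : ∀ i, qv i ∉ S)
    (hpl : ∀ i, ∃ A σ, IsTWPlace p ρ (cycloUnits p (ResidueField 𝒪)) n Sℕ (qv i) A σ)
    {T : Finset Nat.Primes} (hST : S ⊆ T) (hsd : T \ S = Finset.univ.image qv)
    (hzero : ∀ L' : ∀ v : extArithIndex T,
        Submodule (ZMod p) (H1 (Rep.res (extArithLoc T v) (Ad.adRep ρ p))),
      (∀ i, ∃ h : qv i ∈ T, continuousH1 (primeLocalToGlobal (qv i))
          (Rep.res (primeLocalToGlobal (qv i)) (Ad.adRep ρ p)) ≤ L' (Sum.inr ⟨qv i, h⟩)) →
      dualAdSelmer (CFT.tateFin (Ad.adRep ρ p)) (CFT.tateInf (Ad.adRep ρ p)) T L' = ⊥)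
    (hMur : ∀ q : Nat.Primes, q ∉ T → ∀ A : ValuationSubring Qbar, A.LiesOverPrime (q : ℕ) →
      ∀ g ∈ A.inertiaSubgroupIn ℚ, M g = 1)
    (hgen : ∀ l ∈ tangentSpace π aR, (∀ g, l (M g).trace = 0) → l = 0)
    (Lp : Submodule (ZMod p) (H1 (Rep.res (primeLocalToGlobal (pPrime p)) (Ad.adRep ρ p))))
    (hLp : Lp ≤ continuousH1 (primeLocalToGlobal (pPrime p))
      (Rep.res (primeLocalToGlobal (pPrime p)) (Ad.adRep ρ p)))
    (hLpf : finrank (ZMod p) Lp ≤
      finrank (ZMod p) (Rep.res (primeLocalToGlobal (pPrime p)) (Ad.adRep ρ p)).ρ.invariants +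
        finrank (ZMod p) (ResidueField 𝒪))
    (hLpl : ∀ l : tangentSpace π aR, CFT.resAt (pPrime p) (Ad.adRep ρ p)
      (Ad.classMap π M ρ hρ χ hdet aR p l) ∈ Lp) :
    FiniteDimensional (ResidueField 𝒪) (tangentSpace π aR) ∧
      finrank (ResidueField 𝒪) (tangentSpace π aR) ≤ r := by
  have := hs.charP
  have h2 : (2 : (ResidueField 𝒪)) ≠ 0 := FermatLib.CFT.TW.two_ne_zero_of_charP p hs.ne_two
  let L := baseConditions ρ Lp S
  have hcontQ : ∀ i, ∃ h : qv i ∈ T, continuousH1 (primeLocalToGlobal (qv i))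
      (Rep.res (primeLocalToGlobal (qv i)) (Ad.adRep ρ p)) ≤
        twConditions ρ T L (Sum.inr ⟨qv i, h⟩) := fun i => by
    have h : qv i ∈ T \ S := by
      rw [hsd]
      exact Finset.mem_image_of_mem _ (Finset.mem_univ i)
    refine ⟨(Finset.mem_sdiff.1 h).1, ?_⟩
    rw [twConditions_inr_not_mem L ⟨qv i, (Finset.mem_sdiff.1 h).1⟩ (hnot i)]
  obtain ⟨hfin, -, hcount⟩ := selmer_count_of_dual_eq_bot hs S hpS hur L
    (baseConditions_le ρ Lp S hLp) hinj hnot hpl hST hsd (hzero _ hcontQ)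
  have hsum : ∑ v, finrank (ZMod p) (L v) ≤ _ := sum_baseConditions_le ρ Lp hs S hpS hLpf
  have hcl : ∀ l : tangentSpace π aR, Ad.classMap π M ρ hρ χ hdet aR p l ∈
      continuousH1S T (Ad.adRep ρ p) :=
    Ad.classMap_mem_continuousH1S π M ρ hρ χ hdet aR p hM T hMur
  have hmem : ∀ l : tangentSpace π aR, Ad.classMap π M ρ hρ χ hdet aR p l ∈
      selmerAdm (extArithLoc T) (Ad.adRep ρ p) (twConditions ρ T L)
        (continuousH1S T (Ad.adRep ρ p)) := fun l => by
    refine (mem_selmerAdm_iff _ _ _ _ _).mpr ⟨?_, hcl l⟩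
    rintro (u | q)
    · show (groupCohomology.map archimedeanLoc (𝟙 (Rep.res archimedeanLoc (Ad.adRep ρ p))) 1).hom
          (Ad.classMap π M ρ hρ χ hdet aR p l) ∈
        (⊥ : Submodule (ZMod p) (H1 (Rep.res archimedeanLoc (Ad.adRep ρ p))))
      exact (Submodule.mem_bot _).2 (archimedean_h1_eq_zero hs.ne_two _ _)
    · by_cases hqS : q.1 ∈ S
      · rw [twConditions_inr_mem L q hqS]
        show CFT.resAt q.1 (Ad.adRep ρ p) _ ∈ pConditions ρ Lp q.1
        obtain ⟨q, hqT⟩ := q
        by_cases hqp : q = pPrime p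
        · subst hqp
          rw [pConditions_self]
          exact hLpl l
        · rw [pConditions_of_ne ρ Lp hqp]
          have hne : (q : ℕ) ≠ p := fun e => hqp (Subtype.ext e)
          obtain ⟨t⟩ := nonempty_tamePair (Fact.out : p.Prime) q.2 hne
          obtain ⟨A, hA, g, hg, hgne⟩ := hram q hqS hqp
          obtain ⟨c, hc⟩ : ∃ c : GQ, A = c • t.A := by
            obtain ⟨c₁, h₁⟩ := CFT.exists_smul_padicPlace_eq (q := q) A hA
            obtain ⟨c₂, h₂⟩ := CFT.exists_smul_padicPlace_eq (q := q) t.A t.liesOver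
            exact ⟨c₁ * c₂⁻¹, by rw [← h₁, ← h₂, smul_smul, inv_mul_cancel_right]⟩
          rw [hc, Galois.mem_inertiaSubgroupIn_smul] at hg
          have hram' : ∃ σ ∈ t.A.inertiaSubgroupIn ℚ, ρ σ ≠ 1 := ⟨_, hg, fun h1 => hgne (by
            have := congrArg (fun X => ρ c * X * ρ c⁻¹) h1
            simp only [← map_mul, mul_one] at this
            rw [show c * (c⁻¹ * g * c) * c⁻¹ = g by group, mul_inv_cancel, map_one] at this
            exact this)⟩
          exact Odd.GenLocal.resAt_classMap_mem_unramifiedSub π M ρ hρ χ hdet aR p h2 hM q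
            t.liesOver l (Odd.GenLocal.exists_coboundary_inertia π M ρ hρ χ hdet aR Fact.out
              (CharP.cast_eq_zero (ResidueField 𝒪) p) hM t h2 (hsq q hqS hqp t.A t.liesOver) hram' l.2)
      · rw [twConditions_inr_not_mem L q hqS]
        exact CFT.locRes_mem_continuousH1 _ T (Sum.inr q) (hcl l)
  let Φ := (Ad.classMap π M ρ hρ χ hdet aR p).codRestrict _ hmem
  have hΦ : Function.Injective Φ := fun a b h =>
    Ad.classMap_injective π M ρ hρ χ hdet aR p hgen (congrArg Subtype.val h)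
  have hfinp : FiniteDimensional (ZMod p) (tangentSpace π aR) :=
    FiniteDimensional.of_injective Φ hΦ
  refine ⟨Module.Finite.of_restrictScalars_finite (ZMod p) (ResidueField 𝒪) _, ?_⟩
  have hle := LinearMap.finrank_le_finrank_of_injective (f := Φ) hΦ
  rw [← Module.finrank_mul_finrank (ZMod p) (ResidueField 𝒪) (tangentSpace π aR)] at hle
  refine Nat.le_of_mul_le_mul_left ?_ (Module.finrank_pos (R := ZMod p) (M := (ResidueField 𝒪)))
  rw [mul_comm (finrank (ZMod p) (ResidueField 𝒪)) r]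
  omega

end Bound

end FermatLib.MLT.TW56
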