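import Fermat.Agent.Galois.DeformLocal
import Fermat.Agent.Galois.FlatCondition
import Fermat.Agent.Galois.Deform.PowerSeries
import Fermat.Agent.MLT.DualCriterion
import Fermat.Agent.MLT.Ordinary.Basic
import Fermat.Agent.MLT.TW56.Lift
import Fermat.Agent.MLT.TW56.Selmer

/-!
# Taylor–Wiles primes and presentations of the deformation rings

The auxiliary primes are chosen once for the strictly ordinary and the flat problem, killing the
dual classes with no condition at `S_min`.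
-/

set_option autoImplicit false

noncomputable section

open IsLocalRing CategoryTheory Module Polynomial groupCohomology ExtCitation

namespace FermatLib.MLT.TW56

open FermatLib.Galois FermatLib.Galois.Deform FermatLib.MLT.Odd

attribute [local instance] FermatLib.Galois.Deform.dualAlgebra

local notation "Qbar" => AlgebraicClosure ℚ

variable {𝒪 : Type} [CommRing 𝒪] [IsDomain 𝒪] [IsDiscreteValuationRing 𝒪]
  [IsAdicComplete (maximalIdeal 𝒪) 𝒪] [Finite (ResidueField 𝒪)] {p : ℕ} [Fact p.Prime]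
  [Algebra (ZMod p) (ResidueField 𝒪)] {ρbar : ResidualGaloisRep (ResidueField 𝒪)}

/-- The primes of `Smin`. -/
def minSet (Smin : Finset ℕ) : Finset Nat.Primes := Smin.subtype Nat.Prime

omit [Fact p.Prime] in
lemma mem_minSet {Smin : Finset ℕ} {q : Nat.Primes} : q ∈ minSet Smin ↔ (q : ℕ) ∈ Smin :=
  Finset.mem_subtype

omit [IsAdicComplete (maximalIdeal 𝒪) 𝒪] [Finite (ResidueField 𝒪)] [Fact p.Prime]
  [Algebra (ZMod p) (ResidueField 𝒪)] in
/-- Outside `Smin` the residual matrices are trivial on inertia. -/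
theorem residualMat_inertia {Smin : Finset ℕ} (hpSmin : p ∈ Smin)
    (hmin : ∀ q : ℕ, q.Prime → q ≠ p → (q ∈ Smin ↔ ¬ ρbar.IsUnramifiedAt q))
    (q : Nat.Primes) (hq : q ∉ minSet Smin) (A : ValuationSubring Qbar)
    (hA : A.LiesOverPrime (q : ℕ)) (g : GQ) (hg : g ∈ A.inertiaSubgroupIn ℚ) :
    residualMat ρbar g = 1 := by
  rw [mem_minSet] at hq
  have hqp : (q : ℕ) ≠ p := fun h => hq (h ▸ hpSmin)
  exact residualMat_eq_one_of_isUnramifiedAt
    (not_not.mp fun h => hq ((hmin q q.2 hqp).mpr h)) hA hg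

omit [IsAdicComplete (maximalIdeal 𝒪) 𝒪] [Finite (ResidueField 𝒪)] in
/-- The setting of `S56` allows auxiliary primes. -/
theorem isTWSetting (hp2 : p ≠ 2) (habs : ρbar.IsAbsolutelyIrreducible)
    (hdet : (GaloisRepAdic.ofResidualGaloisRep ρbar).DetIsCyclotomic p)
    (hTW : ∀ (K : Type) [Field K] [Algebra (ResidueField 𝒪) K] (G : Subgroup GQ), G.index = 2 →
      ∀ V : Submodule K (ρbar.baseChange K).V,
        (∀ σ ∈ G, ∀ x ∈ V, (ρbar.baseChange K).ρ σ x ∈ V) → V = ⊥ ∨ V = ⊤)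
    {Smin : Finset ℕ} (hpSmin : p ∈ Smin)
    (hmin : ∀ q : ℕ, q.Prime → q ≠ p → (q ∈ Smin ↔ ¬ ρbar.IsUnramifiedAt q)) :
    IsTWSetting p (residualMat ρbar) (cycloUnits p (ResidueField 𝒪)) :=
  isTWSetting_residualMat hp2 habs hdet hTW ⟨Smin, fun q hq hqS =>
    not_not.mp fun h => hqS ((hmin q hq (fun e => hqS (e ▸ hpSmin))).mpr h)⟩

/-- The dual group with no condition at `S_min`. -/
abbrev fullDualSelmer (ρ : GQ →* M2 (ResidueField 𝒪)) (S : Finset Nat.Primes) :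
    Submodule (ZMod p) (H1 (adDual p ρ)) :=
  dualAdSelmer (CFT.tateFin (Ad.adRep ρ p)) (CFT.tateInf (Ad.adRep ρ p)) S (fun _ => ⊥)

omit [IsAdicComplete (maximalIdeal 𝒪) 𝒪] in
/-- **Auxiliary primes for both problems.** -/
theorem exists_primes (hp2 : p ≠ 2) (habs : ρbar.IsAbsolutelyIrreducible)
    (hdet : (GaloisRepAdic.ofResidualGaloisRep ρbar).DetIsCyclotomic p)
    (hsplit : ∀ σ : GQ, ∃ α β : ResidueField 𝒪,
      LinearMap.charpoly (ρbar.ρ σ) = (X - C α) * (X - C β))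
    (hTW : ∀ (K : Type) [Field K] [Algebra (ResidueField 𝒪) K] (G : Subgroup GQ), G.index = 2 →
      ∀ V : Submodule K (ρbar.baseChange K).V,
        (∀ σ ∈ G, ∀ x ∈ V, (ρbar.baseChange K).ρ σ x ∈ V) → V = ⊥ ∨ V = ⊤)
    (S : Finset ℕ) {Smin : Finset ℕ} (hpSmin : p ∈ Smin)
    (hmin : ∀ q : ℕ, q.Prime → q ≠ p → (q ∈ Smin ↔ ¬ ρbar.IsUnramifiedAt q)) :
    ∃ r : ℕ, ∀ n : ℕ, ∃ qv : Fin r → Nat.Primes, Function.Injective qv ∧
      (∀ i, qv i ∉ minSet Smin) ∧ (∀ i, (qv i : ℕ) ∉ S ∧ p ^ (n + 1) ∣ (qv i : ℕ) - 1) ∧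
      (∀ i, ∀ P : ValuationSubring Qbar, P.LiesOverPrime (qv i : ℕ) →
        ∀ φ : GQ, P.IsFrobeniusAt φ (qv i : ℕ) → ∃ α β : ResidueField 𝒪, α ≠ β ∧
          LinearMap.charpoly (ρbar.ρ φ) = (X - C α) * (X - C β)) ∧
      (∀ i, ∃ A σ, IsTWPlace p (residualMat ρbar) (cycloUnits p (ResidueField 𝒪)) n
        ((minSet Smin).image Subtype.val ∪ S) (qv i) A σ) ∧
      ∀ (T : Finset Nat.Primes), minSet Smin ⊆ T → (∀ q ∈ T, q ∉ minSet Smin → ∃ i, qv i = q) →
        ∀ L' : ∀ v : extArithIndex T,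
          Submodule (ZMod p) (H1 (Rep.res (extArithLoc T v) (Ad.adRep (residualMat ρbar) p))),
        (∀ i, ∃ h : qv i ∈ T, continuousH1 (primeLocalToGlobal (qv i))
            (Rep.res (primeLocalToGlobal (qv i)) (Ad.adRep (residualMat ρbar) p)) ≤
              L' (Sum.inr ⟨qv i, h⟩)) →
        dualAdSelmer (CFT.tateFin (Ad.adRep (residualMat ρbar) p))
          (CFT.tateInf (Ad.adRep (residualMat ρbar) p)) T L' = ⊥ := by
  have hs := isTWSetting hp2 habs hdet hTW hpSmin hmin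
  set ρ := residualMat ρbar
  have hsm := adRep_finiteLevel hs
  have hpS : pPrime p ∈ minSet Smin := mem_minSet.mpr hpSmin
  have hur : CFT.GWUnramifiedOutside (Ad.adRep ρ p) (minSet Smin) := fun q hq A hA g hg =>
    Ad.adRep_eq_one_of_eq_one ρ p (residualMat_inertia hpSmin hmin q hq A hA g hg)
  have := finiteDimensional_dualAdSelmer (minSet Smin) (fun _ => ⊥) hsm hpS hur fun _ => bot_le
  refine ⟨finrank (ZMod p) (fullDualSelmer (p := p) ρ (minSet Smin)), fun n => ?_⟩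
  obtain ⟨qv, hinj, hnot, hpl, hzero⟩ := exists_twPrimes_dualAdSelmer hs
    (CFT.tateFin (Ad.adRep ρ p)) (CFT.tateFin_perfect (Ad.adRep ρ p) hsm)
    (CFT.tateInf (Ad.adRep ρ p)) (minSet Smin) hpS hur (fun _ => ⊥) S n _ le_rfl
  refine ⟨qv, hinj, hnot, fun i => ?_, fun i P hP φ hφ => ?_, hpl, fun T hST hT L' hQ => ?_⟩
  · obtain ⟨A, σ, h⟩ := hpl i
    exact ⟨fun hi => h.notMem (Finset.mem_union_right _ hi), h.dvd⟩
  · obtain ⟨A, σ, h⟩ := hpl i
    exact h.exists_distinct_roots hsplit hP hφ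
  · exact hzero T L' hST hT (fun _ => bot_le) (fun _ => bot_le) hQ

/-- A quotient of a power series ring, from the tangent bound. -/
theorem exists_surjective_of_finrank_le {R : Type} [CommRing R] [IsLocalRing R]
    [IsNoetherianRing R] [IsAdicComplete (maximalIdeal R) R] [Algebra 𝒪 R]
    (π : R →ₐ[𝒪] ResidueField 𝒪) {r : ℕ}
    [FiniteDimensional (ResidueField 𝒪) (tangentSpace π (Empty.elim : Empty → R))]
    (h : finrank (ResidueField 𝒪) (tangentSpace π (Empty.elim : Empty → R)) ≤ r) :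
    ∃ γ : MvPowerSeries (Fin r) 𝒪 →ₐ[𝒪] R, Function.Surjective γ := by
  obtain ⟨b, hb, hV⟩ := exists_extension π (Empty.elim : Empty → R) h
  have hV' : tangentSpace π b = ⊥ := by
    rw [eq_bot_iff]
    rintro l ⟨φ, hφ, rfl⟩
    rw [← hV]
    exact ⟨φ, fun i => i.rec (fun e => e.elim) hφ, rfl⟩
  have := PowSer.isAdicComplete_maximalIdeal (σ := Fin r) (R := 𝒪)
  let f := LocQ.evalHom (𝒪 := 𝒪) b hb
  refine ⟨{ f with commutes' := fun c => ?_ },
    evalHom_surjective_of_tangentSpace_eq_bot π b hb hV'⟩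
  exact LocQ.evalHom_C hb c

/-- **The presentation of a deformation ring.** -/
theorem exists_presentation_of_data
    {𝒟 : ∀ ⦃A : Type⦄ [CommRing A] [IsLocalRing A] [Algebra 𝒪 A], GaloisRepAdic A → Prop}
    (DQ : GaloisRep.DeformationRingData 𝒪 ρbar 𝒟)
    (hp𝒪 : (p : 𝒪) ∈ maximalIdeal 𝒪)
    (hs : IsTWSetting p (residualMat ρbar) (cycloUnits p (ResidueField 𝒪)))
    {Smin : Finset ℕ} (hpSmin : p ∈ Smin)
    (hmin : ∀ q : ℕ, q.Prime → q ≠ p → (q ∈ Smin ↔ ¬ ρbar.IsUnramifiedAt q))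
    {n r : ℕ} {Sℕ : Finset ℕ} {qv : Fin r → Nat.Primes} (hinj : Function.Injective qv)
    (hnot : ∀ i, qv i ∉ minSet Smin)
    (hpl : ∀ i, ∃ A σ,
      IsTWPlace p (residualMat ρbar) (cycloUnits p (ResidueField 𝒪)) n Sℕ (qv i) A σ)
    (hzero : ∀ (T : Finset Nat.Primes), minSet Smin ⊆ T →
      (∀ q ∈ T, q ∉ minSet Smin → ∃ i, qv i = q) →
        ∀ L' : ∀ v : extArithIndex T,
          Submodule (ZMod p) (H1 (Rep.res (extArithLoc T v) (Ad.adRep (residualMat ρbar) p))),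
        (∀ i, ∃ h : qv i ∈ T, continuousH1 (primeLocalToGlobal (qv i))
            (Rep.res (primeLocalToGlobal (qv i)) (Ad.adRep (residualMat ρbar) p)) ≤
              L' (Sum.inr ⟨qv i, h⟩)) →
        dualAdSelmer (CFT.tateFin (Ad.adRep (residualMat ρbar) p))
          (CFT.tateInf (Ad.adRep (residualMat ρbar) p)) T L' = ⊥)
    (hcyc : DQ.ρ.DetIsCyclotomic p)
    (hout : ∀ q : ℕ, q.Prime → q ∉ Smin ∪ Finset.univ.image (fun i => (qv i : ℕ)) →
      DQ.ρ.IsUnramifiedAt q)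
    (hunip : ∀ q ∈ Smin, q.Prime → q ≠ p → DQ.ρ.IsUnipotentOnInertiaAt q)
    (hstable : ∀ (φ : DQ.R →ₐ[𝒪] DualNumber (ResidueField 𝒪))
      (hφ : IsLocalHom (φ : DQ.R →+* DualNumber (ResidueField 𝒪))),
        𝒟 (DQ.ρ.baseChangeAlong (φ : DQ.R →+* DualNumber (ResidueField 𝒪)) hφ))
    (hbound : ∀ (π : DQ.R →ₐ[𝒪] ResidueField 𝒪) (M : GQ →* M2 DQ.R) (hM : MatCont M)
      (hρ : ∀ g, (M g).map π = residualMat ρbar g) (χ : GQ → 𝒪)
      (hdet : ∀ g, (M g).det = algebraMap 𝒪 DQ.R (χ g)), DQ.ρ.IsEquiv (toAdic M hM) →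
      ∃ L : Submodule (ZMod p)
          (H1 (Rep.res (primeLocalToGlobal (pPrime p)) (Ad.adRep (residualMat ρbar) p))),
        L ≤ continuousH1 (primeLocalToGlobal (pPrime p))
            (Rep.res (primeLocalToGlobal (pPrime p)) (Ad.adRep (residualMat ρbar) p)) ∧
        finrank (ZMod p) L ≤
          finrank (ZMod p)
              (Rep.res (primeLocalToGlobal (pPrime p)) (Ad.adRep (residualMat ρbar) p)).ρ.invariants +
            finrank (ZMod p) (ResidueField 𝒪) ∧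
        ∀ l : tangentSpace π (Empty.elim : Empty → DQ.R),
          CFT.resAt (pPrime p) (Ad.adRep (residualMat ρbar) p)
            (Ad.classMap π M (residualMat ρbar) hρ χ hdet Empty.elim p l) ∈ L) :
    ∃ γ : MvPowerSeries (Fin r) 𝒪 →ₐ[𝒪] DQ.R, Function.Surjective γ := by
  classical
  obtain ⟨π, M, hM, he, hρ⟩ := exists_mat DQ
  obtain ⟨χ, hχ⟩ := exists_det_char (𝒪 := 𝒪) p hp𝒪
  have hdet : ∀ g, (M g).det = algebraMap 𝒪 DQ.R (χ g) := fun g => by
    rw [← hχ DQ.R (toAdic M hM) (DeformLocal.detIsCyclotomic_of_isEquiv he hcyc) g,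
      ← LinearMap.det_toMatrix (stdBasis M hM), toMatrix_toAdic]
  obtain ⟨Lp, hLp, hLpf, hLpl⟩ := hbound π M hM hρ χ hdet he
  set S₀ := minSet Smin with hS₀
  set T := S₀ ∪ Finset.univ.image qv with hT
  have hsd : T \ S₀ = Finset.univ.image qv := by
    rw [hT, Finset.union_sdiff_left, Finset.sdiff_eq_self_iff_disjoint, Finset.disjoint_left]
    intro q hq hqS
    obtain ⟨i, -, rfl⟩ := Finset.mem_image.1 hq
    exact hnot i hqS
  have hTQ : ∀ q ∈ T, q ∉ S₀ → ∃ i, qv i = q := fun q hq hqS => by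
    rcases Finset.mem_union.1 hq with h | h
    · exact absurd h hqS
    · obtain ⟨i, -, hi⟩ := Finset.mem_image.1 h
      exact ⟨i, hi⟩
  have hram' : ∀ q ∈ S₀, q ≠ pPrime p → ∃ A : ValuationSubring Qbar, A.LiesOverPrime (q : ℕ) ∧
      ∃ g ∈ A.inertiaSubgroupIn ℚ, residualMat ρbar g ≠ 1 := fun q hq hqp => by
    have hqp' : (q : ℕ) ≠ p := fun e => hqp (Subtype.ext e)
    have hram := (hmin q q.2 hqp').1 (mem_minSet.1 hq)
    rw [ResidualGaloisRep.IsUnramifiedAt] at hram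
    push Not at hram
    obtain ⟨A, hA, g, hg, hne⟩ := hram
    refine ⟨A, hA, g, hg, fun h1 => hne ?_⟩
    refine (LinearMap.toMatrixAlgEquiv (residualBasis ρbar)).injective ?_
    rw [map_one]
    exact h1
  have hsq : ∀ q ∈ S₀, q ≠ pPrime p → ∀ A : ValuationSubring Qbar, A.LiesOverPrime (q : ℕ) →
      ∀ g ∈ A.inertiaSubgroupIn ℚ, (M g - 1) * (M g - 1) = 0 := fun q hq hqp A hA g hg => by
    have hqp' : (q : ℕ) ≠ p := fun e => hqp (Subtype.ext e)
    have hu := DeformLocal.isUnipotentOnInertiaAt_of_isEquiv he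
      (hunip q (mem_minSet.1 hq) q.2 hqp') A hA g hg
    rw [← LinearMap.charpoly_toMatrix _ (stdBasis M hM), toMatrix_toAdic] at hu
    have h := Matrix.aeval_self_charpoly (M g)
    rw [hu] at h
    simpa [pow_two] using h
  have hMur : ∀ q : Nat.Primes, q ∉ T → ∀ A : ValuationSubring Qbar, A.LiesOverPrime (q : ℕ) →
      ∀ g ∈ A.inertiaSubgroupIn ℚ, M g = 1 := fun q hq A hA g hg => by
    have hqT : (q : ℕ) ∉ Smin ∪ Finset.univ.image (fun i => (qv i : ℕ)) := fun h => by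
      refine hq (Finset.mem_union.2 ?_)
      rcases Finset.mem_union.1 h with h | h
      · exact Or.inl (mem_minSet.2 h)
      · obtain ⟨i, -, hi⟩ := Finset.mem_image.1 h
        exact Or.inr (Finset.mem_image.2 ⟨i, Finset.mem_univ i, Subtype.ext hi⟩)
    have h1 := DeformLocal.isUnramifiedAt_of_isEquiv he (hout q q.2 hqT) A hA g hg
    rw [← toMatrix_toAdic M hM g, h1, LinearMap.toMatrix_one]
  obtain ⟨hfd, hle⟩ := finrank_tangentSpace_le π M hM (residualMat ρbar) hρ χ hdet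
    (Empty.elim : Empty → DQ.R) hs S₀ (mem_minSet.mpr hpSmin) (residualMat_inertia hpSmin hmin)
    hram' hsq hinj hnot hpl Finset.subset_union_left hsd
    (hzero T Finset.subset_union_left hTQ) hMur (eq_zero_of_trace DQ π he hρ hstable _) Lp hLp hLpf
    hLpl
  exact exists_surjective_of_finrank_le π hle

end FermatLib.MLT.TW56
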